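/-
S29 / S42 / S30 (helper95): the elementary "two-dimensional lemma with involution" (D').

`K` a field with `2 ≠ 0`, `G` a group acting linearly on a nonzero `K`-space `V` (no finiteness),
`ε : G →* Kˣ`, `a : G → K` with `ρ g + ε g • ρ g⁻¹ = a g • 1` for all `g`, and an element `c` with
`c * c = 1`, `ε c = -1`.  Then `V` contains a `G`-stable line on which `G` acts by a character `η`
with `η + ε / η = a`, or a `G`-stable plane on which every `g` has trace `a g` and determinant
`ε g`.  No Burnside / density theorem, no algebraically closed field.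
-/
import Mathlib

set_option autoImplicit false

namespace Fermat.Agent.S29.H95

variable {K : Type*} [Field K] {G : Type*} [Group G] {V : Type*} [AddCommGroup V] [Module K V]

/-- The span of the pairs `(ρ g, ε g • ρ g⁻¹)`: the graph of the involution `g ↦ ε g • g⁻¹`. -/
def invGraph (ρ : G →* Module.End K V) (ε : G →* Kˣ) :
    Submodule K (Module.End K V × Module.End K V) :=
  Submodule.span K (Set.range fun g : G => (ρ g, ((ε g : Kˣ) : K) • ρ g⁻¹))

/-- The anti-multiplication `(X, X') (Y, Y') = (X Y, Y' X')` as a bilinear map. -/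
def antiMul : (Module.End K V × Module.End K V) →ₗ[K]
    (Module.End K V × Module.End K V) →ₗ[K] (Module.End K V × Module.End K V) :=
  LinearMap.mk₂ K (fun x y => (x.1 * y.1, y.2 * x.2))
    (fun x x' y => by ext <;> simp [add_mul, mul_add])
    (fun c x y => by ext <;> simp)
    (fun x y y' => by ext <;> simp [add_mul, mul_add])
    (fun c x y => by ext <;> simp)

@[simp] lemma antiMul_apply (x y : Module.End K V × Module.End K V) :
    antiMul x y = (x.1 * y.1, y.2 * x.2) := rfl

variable (ρ : G →* Module.End K V) (ε : G →* Kˣ)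

lemma gen_mem_invGraph (g : G) : (ρ g, ((ε g : Kˣ) : K) • ρ g⁻¹) ∈ invGraph ρ ε :=
  Submodule.subset_span ⟨g, rfl⟩

lemma one_mem_invGraph : ((1 : Module.End K V), (1 : Module.End K V)) ∈ invGraph ρ ε := by
  have h := gen_mem_invGraph ρ ε 1
  simpa using h

lemma mul_mem_invGraph {x y : Module.End K V × Module.End K V} (hx : x ∈ invGraph ρ ε)
    (hy : y ∈ invGraph ρ ε) : (x.1 * y.1, y.2 * x.2) ∈ invGraph ρ ε := by
  have h : Submodule.map₂ antiMul (invGraph ρ ε) (invGraph ρ ε) ≤ invGraph ρ ε := by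
    rw [invGraph, Submodule.map₂_span_span, Submodule.span_le]
    rintro _ ⟨_, ⟨g, rfl⟩, _, ⟨h, rfl⟩, rfl⟩
    have e : antiMul (ρ g, ((ε g : Kˣ) : K) • ρ g⁻¹) (ρ h, ((ε h : Kˣ) : K) • ρ h⁻¹)
        = (ρ (g * h), ((ε (g * h) : Kˣ) : K) • ρ (g * h)⁻¹) := by
      simp only [antiMul_apply]
      rw [mul_inv_rev, map_mul, map_mul, map_mul, Units.val_mul, smul_mul_smul_comm, mul_comm]
    show antiMul (ρ g, ((ε g : Kˣ) : K) • ρ g⁻¹) (ρ h, ((ε h : Kˣ) : K) • ρ h⁻¹) ∈ invGraph ρ ε
    rw [e]
    exact gen_mem_invGraph ρ ε (g * h)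
  exact h (Submodule.apply_mem_map₂ antiMul hx hy)

lemma swap_mem_invGraph {x : Module.End K V × Module.End K V} (hx : x ∈ invGraph ρ ε) :
    (x.2, x.1) ∈ invGraph ρ ε := by
  have h : (invGraph ρ ε).map (LinearEquiv.prodComm K (Module.End K V) (Module.End K V) :
      (Module.End K V × Module.End K V) →ₗ[K] (Module.End K V × Module.End K V)) ≤ invGraph ρ ε := by
    rw [invGraph, Submodule.map_span, Submodule.span_le]
    rintro _ ⟨_, ⟨g, rfl⟩, rfl⟩
    have := (invGraph ρ ε).smul_mem ((ε g : Kˣ) : K) (gen_mem_invGraph ρ ε g⁻¹)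
    have e : ((ε g : Kˣ) : K) • (ρ g⁻¹, ((ε g⁻¹ : Kˣ) : K) • ρ g⁻¹⁻¹)
        = (((ε g : Kˣ) : K) • ρ g⁻¹, ρ g) := by
      simp only [Prod.smul_mk, inv_inv, map_inv, Units.val_inv_eq_inv_val, smul_smul]
      rw [mul_inv_cancel₀ (Units.ne_zero _), one_smul]
    rw [e] at this
    exact this
  exact h (Submodule.mem_map_of_mem (f := (LinearEquiv.prodComm K (Module.End K V) (Module.End K V) :
      (Module.End K V × Module.End K V) →ₗ[K] (Module.End K V × Module.End K V))) hx)

variable {ρ ε}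

lemma exists_add_eq_smul_one {a : G → K}
    (hrel : ∀ g, ρ g + ((ε g : Kˣ) : K) • ρ g⁻¹ = a g • (1 : Module.End K V))
    {x : Module.End K V × Module.End K V} (hx : x ∈ invGraph ρ ε) :
    ∃ α : K, x.1 + x.2 = α • (1 : Module.End K V) := by
  induction hx using Submodule.span_induction with
  | mem x hx =>
    obtain ⟨g, rfl⟩ := hx
    exact ⟨a g, hrel g⟩
  | zero => exact ⟨0, by simp⟩
  | add x y _ _ hx hy =>
    obtain ⟨α, hα⟩ := hx
    obtain ⟨β, hβ⟩ := hy
    exact ⟨α + β, by rw [add_smul, ← hα, ← hβ]; simp only [Prod.fst_add, Prod.snd_add]; abel⟩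
  | smul c x _ hx =>
    obtain ⟨α, hα⟩ := hx
    exact ⟨c * α, by rw [mul_smul, ← hα]; simp only [Prod.smul_fst, Prod.smul_snd, smul_add]⟩


/-- A nonzero vector which is an eigenvector of every `ρ g` gives a character with `η + ε/η = a`. -/
lemma line_of_eigen {a : G → K}
    (hrel : ∀ g, ρ g + ((ε g : Kˣ) : K) • ρ g⁻¹ = a g • (1 : Module.End K V))
    {w : V} (hw : w ≠ 0) (h : ∀ g, ∃ l : K, ρ g w = l • w) :
    ∃ η : G →* Kˣ, (∀ g, ρ g w = ((η g : Kˣ) : K) • w) ∧
      ∀ g, ((η g : Kˣ) : K) + ((ε g : Kˣ) : K) * (((η g)⁻¹ : Kˣ) : K) = a g := by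
  choose l hl using h
  have hmul : ∀ g h, l (g * h) = l g * l h := by
    intro g h
    have h1 : ρ (g * h) w = (l g * l h) • w := by
      rw [map_mul, Module.End.mul_apply, hl h, map_smul, hl g, smul_smul, mul_comm]
    have h2 := hl (g * h)
    rw [h1] at h2
    exact (smul_left_injective K hw h2).symm
  have hone : l 1 = 1 := by
    have h2 := hl 1
    rw [map_one, Module.End.one_apply] at h2
    have h3 : (1 : K) • w = l 1 • w := by rw [one_smul]; exact h2
    exact (smul_left_injective K hw h3).symm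
  let η' : G →* K := { toFun := l, map_one' := hone, map_mul' := hmul }
  refine ⟨η'.toHomUnits, fun g => hl g, fun g => ?_⟩
  have h3 := congrArg (fun T : Module.End K V => T w) (hrel g)
  simp only [LinearMap.add_apply, LinearMap.smul_apply, Module.End.one_apply] at h3
  rw [hl g, hl g⁻¹, smul_smul, ← add_smul] at h3
  have h4 := smul_left_injective K hw h3
  have h5 : (((η'.toHomUnits g)⁻¹ : Kˣ) : K) = l g⁻¹ := by
    rw [← map_inv]; rfl
  rw [h5]; exact h4


/-- Idempotent bookkeeping for `e = (1 + C)/2`, `e' = (1 - C)/2` with `C * C = 1`. -/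
lemma idem_facts (h2 : (2 : K) ≠ 0) {C : Module.End K V} (hCC : C * C = 1) :
    let e : Module.End K V := (2 : K)⁻¹ • (1 + C)
    let e' : Module.End K V := (2 : K)⁻¹ • (1 - C)
    e + e' = 1 ∧ e * e = e ∧ e' * e' = e' ∧ e * e' = 0 ∧ e' * e = 0 := by
  intro e e'
  have h4 : (2 : K)⁻¹ * (2 : K)⁻¹ * 2 = (2 : K)⁻¹ := by field_simp
  have s1 : (1 + C) * (1 + C) = (2 : K) • (1 + C) := by
    rw [two_smul, mul_add, add_mul, add_mul, one_mul, mul_one, one_mul, hCC]; abel
  have s2 : (1 - C) * (1 - C) = (2 : K) • (1 - C) := by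
    rw [two_smul, mul_sub, sub_mul, sub_mul, one_mul, mul_one, one_mul, hCC]; abel
  have s3 : (1 + C) * (1 - C) = 0 := by
    rw [mul_sub, add_mul, add_mul, one_mul, mul_one, one_mul, hCC]; abel
  have s4 : (1 - C) * (1 + C) = 0 := by
    rw [mul_add, sub_mul, sub_mul, one_mul, mul_one, one_mul, hCC]; abel
  refine ⟨?_, ?_, ?_, ?_, ?_⟩
  · show (2 : K)⁻¹ • (1 + C) + (2 : K)⁻¹ • (1 - C) = 1
    have : (1 + C) + (1 - C) = (2 : K) • (1 : Module.End K V) := by rw [two_smul]; abel
    rw [← smul_add, this, smul_smul, inv_mul_cancel₀ h2, one_smul]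
  · show (2 : K)⁻¹ • (1 + C) * (2 : K)⁻¹ • (1 + C) = (2 : K)⁻¹ • (1 + C)
    rw [smul_mul_smul_comm, s1, smul_smul, h4]
  · show (2 : K)⁻¹ • (1 - C) * (2 : K)⁻¹ • (1 - C) = (2 : K)⁻¹ • (1 - C)
    rw [smul_mul_smul_comm, s2, smul_smul, h4]
  · show (2 : K)⁻¹ • (1 + C) * (2 : K)⁻¹ • (1 - C) = 0
    rw [smul_mul_smul_comm, s3, smul_zero]
  · show (2 : K)⁻¹ • (1 - C) * (2 : K)⁻¹ • (1 + C) = 0
    rw [smul_mul_smul_comm, s4, smul_zero]


/-- Core of case (B): two complementary idempotents `e, e'` in a multiplicatively closed family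
`𝒜` with `e 𝒜 e = K e`, `e' 𝒜 e' = K e'` give a stable line or a stable plane with matrix units. -/
lemma core_caseB
    (𝒜 : Set (Module.End K V)) (hmul : ∀ X ∈ 𝒜, ∀ Y ∈ 𝒜, X * Y ∈ 𝒜)
    (hsmul : ∀ (c : K), ∀ X ∈ 𝒜, c • X ∈ 𝒜)
    {e e' : Module.End K V} (he : e ∈ 𝒜) (he' : e' ∈ 𝒜)
    (hsum : e + e' = 1) (hee : e * e = e) (he'e' : e' * e' = e') (hee' : e * e' = 0)
    (he0 : e ≠ 0)
    (F1 : ∀ X ∈ 𝒜, ∃ l : K, e * X * e = l • e)
    (F2 : ∀ X ∈ 𝒜, ∃ m : K, e' * X * e' = m • e') :
    (∃ w : V, w ≠ 0 ∧ ∀ X ∈ 𝒜, ∃ l : K, X w = l • w) ∨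
    (∃ v w : V, LinearIndependent K ![v, w] ∧ ∀ X ∈ 𝒜, ∃ l n k m : K,
        e * X * e = l • e ∧ e' * X * e' = m • e' ∧ X v = l • v + k • w ∧ X w = n • v + m • w) := by
  classical
  obtain ⟨v₀, hv₀⟩ : ∃ v₀, e v₀ ≠ 0 := by
    by_contra h
    push Not at h
    exact he0 (LinearMap.ext h)
  set v := e v₀ with hv
  have hev : e v = v := by rw [hv, ← Module.End.mul_apply, hee]
  have hdecomp : ∀ u : V, u = e u + e' u := by
    intro u
    rw [← LinearMap.add_apply, hsum, Module.End.one_apply]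
  by_cases hii : ∃ X ∈ 𝒜, ∃ Y ∈ 𝒜, e * X * e' * (e' * Y * e) ≠ 0
  · right
    obtain ⟨X₀, hX₀, Y, hY, hne⟩ := hii
    obtain ⟨β, hβ⟩ := F1 (X₀ * e' * Y) (hmul _ (hmul _ hX₀ _ he') _ hY)
    have hprod : e * X₀ * e' * (e' * Y * e) = β • e := by
      rw [← hβ]
      simp only [mul_assoc]
      rw [← mul_assoc e' e', he'e']
    have hβ0 : β ≠ 0 := by
      rintro rfl
      rw [zero_smul] at hprod
      exact hne hprod
    obtain ⟨U₀, hU₀⟩ : ∃ U₀ : Module.End K V, U₀ = β⁻¹ • (e * X₀ * e') := ⟨_, rfl⟩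
    obtain ⟨Y₀, hY₀⟩ : ∃ Y₀ : Module.End K V, Y₀ = e' * Y * e := ⟨_, rfl⟩
    rw [← hY₀] at hprod
    have hU₀mem : U₀ ∈ 𝒜 := hU₀ ▸ hsmul _ _ (hmul _ (hmul _ he _ hX₀) _ he')
    have hY₀mem : Y₀ ∈ 𝒜 := hY₀ ▸ hmul _ (hmul _ he' _ hY) _ he
    have hUY : U₀ * Y₀ = e := by
      rw [hU₀, smul_mul_assoc, hprod, smul_smul, inv_mul_cancel₀ hβ0, one_smul]
    have heU : e * U₀ = U₀ := by
      rw [hU₀, mul_smul_comm, ← mul_assoc, ← mul_assoc, hee]
    have hUe' : U₀ * e' = U₀ := by
      rw [hU₀, smul_mul_assoc, mul_assoc, he'e']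
    have he'Y : e' * Y₀ = Y₀ := by
      rw [hY₀, ← mul_assoc, ← mul_assoc, he'e']
    have hYe : Y₀ * e = Y₀ := by
      rw [hY₀, mul_assoc, hee]
    have hY₀0 : Y₀ ≠ 0 := by
      intro h
      rw [h, mul_zero] at hUY
      exact he0 hUY.symm
    have hYU : Y₀ * U₀ = e' := by
      obtain ⟨β', hβ'⟩ := F2 (Y₀ * U₀) (hmul _ hY₀mem _ hU₀mem)
      have h1 : e' * (Y₀ * U₀) * e' = Y₀ * U₀ := by
        rw [← mul_assoc, he'Y, mul_assoc, hUe']
      rw [h1] at hβ'
      have h2 : Y₀ * U₀ * Y₀ = β' • Y₀ := by rw [hβ', smul_mul_assoc, he'Y]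
      have h3 : Y₀ * U₀ * Y₀ = Y₀ := by rw [mul_assoc, hUY, hYe]
      have h4 : (β' - 1) • Y₀ = 0 := by rw [sub_smul, one_smul, ← h2, h3, sub_self]
      have h5 : β' = 1 := by
        rcases smul_eq_zero.mp h4 with h | h
        · exact sub_eq_zero.mp h
        · exact absurd h hY₀0
      rw [hβ', h5, one_smul]
    obtain ⟨w, hw⟩ : ∃ w : V, w = Y₀ v := ⟨_, rfl⟩
    have hUw : U₀ w = v := by rw [hw, ← Module.End.mul_apply, hUY, hev]
    have he'w : e' w = w := by rw [hw, ← Module.End.mul_apply, he'Y]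
    have hew : e w = 0 := by
      rw [← he'w, ← Module.End.mul_apply, hee']
      rfl
    have hw0 : w ≠ 0 := by
      intro h
      rw [h, map_zero] at hUw
      exact hv₀ hUw.symm
    refine ⟨v, w, ?_, ?_⟩
    · rw [LinearIndependent.pair_iff]
      intro s t hst
      have h1 := congrArg e hst
      rw [map_add, map_smul, map_smul, hev, hew, smul_zero, add_zero, map_zero] at h1
      have hs : s = 0 := by
        rcases smul_eq_zero.mp h1 with h | h
        · exact h
        · exact absurd h hv₀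
      rw [hs, zero_smul, zero_add] at hst
      have ht : t = 0 := by
        rcases smul_eq_zero.mp hst with h | h
        · exact h
        · exact absurd h hw0
      exact ⟨hs, ht⟩
    · intro X hX
      obtain ⟨l, hl⟩ := F1 X hX
      obtain ⟨m, hm⟩ := F2 X hX
      obtain ⟨k, hk⟩ := F2 (X * e * U₀) (hmul _ (hmul _ hX _ he) _ hU₀mem)
      obtain ⟨n, hn⟩ := F1 (X * Y₀) (hmul _ hX _ hY₀mem)
      have hk' : e' * X * e = k • Y₀ := by
        have h1 : e' * X * e = e' * (X * e * U₀) * e' * Y₀ := by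
          rw [mul_assoc (e' * (X * e * U₀)), he'Y]
          simp only [mul_assoc]
          rw [hUY, hee]
        rw [h1, hk, smul_mul_assoc, he'Y]
      have hn' : e * X * e' = n • U₀ := by
        have h1 : e * X * e' = e * (X * Y₀) * e * U₀ := by
          rw [mul_assoc (e * (X * Y₀)), heU]
          simp only [mul_assoc]
          rw [hYU]
        rw [h1, hn, smul_mul_assoc, heU]
      refine ⟨l, n, k, m, hl, hm, ?_, ?_⟩
      · calc X v = e (X v) + e' (X v) := hdecomp _
          _ = (e * X * e) v + (e' * X * e) v := by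
              simp only [Module.End.mul_apply, hev]
          _ = l • v + k • w := by
              rw [hl, hk', LinearMap.smul_apply, LinearMap.smul_apply, hev, ← hw]
      · calc X w = e (X w) + e' (X w) := hdecomp _
          _ = (e * X * e') w + (e' * X * e') w := by
              simp only [Module.End.mul_apply, he'w]
          _ = n • v + m • w := by
              rw [hn', hm, LinearMap.smul_apply, LinearMap.smul_apply, hUw, he'w]
  · left
    push Not at hii
    by_cases hQ : ∃ Y ∈ 𝒜, (e' * Y * e) v ≠ 0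
    · obtain ⟨Y, hY, hYv⟩ := hQ
      set w := (e' * Y * e) v with hw
      have he'w : e' w = w := by
        rw [hw, ← Module.End.mul_apply, ← mul_assoc, ← mul_assoc, he'e']
      refine ⟨w, hYv, fun X hX => ?_⟩
      obtain ⟨m, hm⟩ := F2 X hX
      refine ⟨m, ?_⟩
      have h1 : e (X w) = 0 := by
        have h2 : e (X w) = (e * X * e' * (e' * Y * e)) v := by
          rw [Module.End.mul_apply, ← hw, Module.End.mul_apply, Module.End.mul_apply, he'w]
        rw [h2, hii X hX Y hY]
        rfl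
      have h3 : e' (X w) = m • w := by
        have h4 : e' (X w) = (e' * X * e') w := by
          rw [Module.End.mul_apply, Module.End.mul_apply, he'w]
        rw [h4, hm, LinearMap.smul_apply, he'w]
      calc X w = e (X w) + e' (X w) := hdecomp _
        _ = m • w := by rw [h1, h3, zero_add]
    · push Not at hQ
      refine ⟨v, hv₀, fun X hX => ?_⟩
      obtain ⟨l, hl⟩ := F1 X hX
      refine ⟨l, ?_⟩
      calc X v = e (X v) + e' (X v) := hdecomp _
        _ = (e * X * e) v + (e' * X * e) v := by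
            simp only [Module.End.mul_apply, hev]
        _ = l • v := by
            rw [hl, hQ X hX, add_zero, LinearMap.smul_apply, hev]


/-- **Lemma (D')**.  `2 ≠ 0` in `K`; `ρ g + ε g • ρ g⁻¹ = a g • 1` for all `g`; `c * c = 1`,
`ε c = -1`.  Then there is a stable line with character `η`, `η + ε / η = a`, or a stable plane
on which every `g` has trace `a g` and determinant `ε g` (scalar elements included). -/
theorem exists_line_or_plane [Nontrivial V] (h2 : (2 : K) ≠ 0) {a : G → K}
    (hrel : ∀ g, ρ g + ((ε g : Kˣ) : K) • ρ g⁻¹ = a g • (1 : Module.End K V))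
    {c : G} (hc : c * c = 1) (hεc : ε c = -1) :
    (∃ (w : V) (η : G →* Kˣ), w ≠ 0 ∧ (∀ g, ρ g w = ((η g : Kˣ) : K) • w) ∧
      ∀ g, ((η g : Kˣ) : K) + ((ε g : Kˣ) : K) * (((η g)⁻¹ : Kˣ) : K) = a g) ∨
    (∃ v w : V, LinearIndependent K ![v, w] ∧ ∀ g, ∃ l n k m : K,
      ρ g v = l • v + k • w ∧ ρ g w = n • v + m • w ∧ l + m = a g ∧
        l * m - n * k = ((ε g : Kˣ) : K)) := by
  classical
  have hone_ne : (1 : Module.End K V) ≠ 0 := by
    obtain ⟨w, hw⟩ := exists_ne (0 : V)
    intro h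
    have := congrArg (fun T : Module.End K V => T w) h
    simp only [Module.End.one_apply, LinearMap.zero_apply] at this
    exact hw this
  by_cases hA : ∃ X' : Module.End K V, ((0 : Module.End K V), X') ∈ invGraph ρ ε ∧ X' ≠ 0
  · -- case (A): everything is scalar
    left
    obtain ⟨X', hX', hX'0⟩ := hA
    obtain ⟨α, hα⟩ := exists_add_eq_smul_one hrel hX'
    simp only [zero_add] at hα
    have hα0 : α ≠ 0 := by
      rintro rfl
      rw [zero_smul] at hα
      exact hX'0 hα
    have hsc2 : ∀ y ∈ invGraph ρ ε, ∃ β : K, y.2 = β • (1 : Module.End K V) := by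
      intro y hy
      have hm := mul_mem_invGraph ρ ε hy hX'
      obtain ⟨β, hβ⟩ := exists_add_eq_smul_one hrel hm
      simp only [mul_zero, zero_add] at hβ
      rw [hα, smul_mul_assoc, one_mul] at hβ
      refine ⟨α⁻¹ * β, ?_⟩
      rw [mul_smul, ← hβ, smul_smul, inv_mul_cancel₀ hα0, one_smul]
    have hsc : ∀ g, ∃ β : K, ρ g = β • (1 : Module.End K V) := fun g =>
      hsc2 _ (swap_mem_invGraph ρ ε (gen_mem_invGraph ρ ε g))
    obtain ⟨w, hw⟩ := exists_ne (0 : V)
    obtain ⟨η, h1, h2'⟩ := line_of_eigen hrel hw (fun g => by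
      obtain ⟨β, hβ⟩ := hsc g
      exact ⟨β, by rw [hβ, LinearMap.smul_apply, Module.End.one_apply]⟩)
    exact ⟨w, η, hw, h1, h2'⟩
  · -- case (B): the involution descends
    have hB : ∀ X' : Module.End K V, ((0 : Module.End K V), X') ∈ invGraph ρ ε → X' = 0 := by
      intro X' hX'
      by_contra h
      exact hA ⟨X', hX', h⟩
    obtain ⟨C, hC⟩ : ∃ C : Module.End K V, C = ρ c := ⟨_, rfl⟩
    have hCC : C * C = 1 := by rw [hC, ← map_mul, hc, map_one]
    have hcinv : c⁻¹ = c := inv_eq_of_mul_eq_one_right hc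
    have hCmem : (C, -C) ∈ invGraph ρ ε := by
      have h := gen_mem_invGraph ρ ε c
      rw [hcinv, hεc] at h
      have e1 : (((-1 : Kˣ) : K)) • ρ c = -ρ c := by
        rw [Units.val_neg, Units.val_one, neg_smul, one_smul]
      rw [e1, ← hC] at h
      exact h
    obtain ⟨hsum, hee, he'e', hee', -⟩ := idem_facts h2 hCC
    obtain ⟨e, he⟩ : ∃ e : Module.End K V, e = (2 : K)⁻¹ • (1 + C) := ⟨_, rfl⟩
    obtain ⟨e', he'⟩ : ∃ e' : Module.End K V, e' = (2 : K)⁻¹ • (1 - C) := ⟨_, rfl⟩
    simp only [← he, ← he'] at hsum hee he'e' hee'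
    have hmem1 : (e, e') ∈ invGraph ρ ε := by
      have h := (invGraph ρ ε).smul_mem (2 : K)⁻¹
        ((invGraph ρ ε).add_mem (one_mem_invGraph ρ ε) hCmem)
      have e1 : (2 : K)⁻¹ • (((1 : Module.End K V), (1 : Module.End K V)) + (C, -C)) = (e, e') := by
        rw [he, he', sub_eq_add_neg]
        rfl
      rw [e1] at h
      exact h
    have hmem2 : (e', e) ∈ invGraph ρ ε := swap_mem_invGraph ρ ε hmem1
    have he0 : e ≠ 0 := by
      intro h
      rw [h, zero_add] at hsum
      rw [h, hsum] at hmem1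
      exact hone_ne (hB _ hmem1)
    have he'0 : e' ≠ 0 := by
      intro h
      rw [h, add_zero] at hsum
      rw [h, hsum] at hmem2
      exact hone_ne (hB _ hmem2)
    -- the pair version of `e 𝒜 e = K e`
    have F : ∀ x ∈ invGraph ρ ε, ∃ α : K, e * x.1 * e = α • e ∧ e' * x.2 * e' = α • e' := by
      intro x hx
      have m1 := mul_mem_invGraph ρ ε hmem1 hx
      have m2 := mul_mem_invGraph ρ ε m1 hmem1
      obtain ⟨α, hα⟩ := exists_add_eq_smul_one hrel m2
      simp only at hα
      refine ⟨α, ?_, ?_⟩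
      · have h := congrArg (fun T => e * T) hα
        simp only [mul_add, mul_smul_comm, mul_one] at h
        rw [← mul_assoc e e', hee', zero_mul, add_zero, ← mul_assoc, ← mul_assoc, hee] at h
        exact h
      · have h := congrArg (fun T => T * e') hα
        simp only [add_mul, smul_mul_assoc, one_mul] at h
        rw [mul_assoc (e * x.1), hee', mul_zero, zero_add, mul_assoc e', mul_assoc x.2, he'e'] at h
        rw [mul_assoc]
        exact h
    set 𝒜 : Set (Module.End K V) := {X | ∃ X', (X, X') ∈ invGraph ρ ε} with h𝒜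
    have hρmem : ∀ g, ρ g ∈ 𝒜 := fun g => ⟨_, gen_mem_invGraph ρ ε g⟩
    have hcore := core_caseB 𝒜
      (fun X hX Y hY => by
        obtain ⟨X', hX'⟩ := hX
        obtain ⟨Y', hY'⟩ := hY
        exact ⟨_, mul_mem_invGraph ρ ε hX' hY'⟩)
      (fun c X hX => by
        obtain ⟨X', hX'⟩ := hX
        exact ⟨c • X', (invGraph ρ ε).smul_mem c hX'⟩)
      ⟨e', hmem1⟩ ⟨e, hmem2⟩ hsum hee he'e' hee' he0
      (fun X hX => by
        obtain ⟨X', hX'⟩ := hX
        obtain ⟨α, h1, -⟩ := F _ hX'
        exact ⟨α, h1⟩)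
      (fun X hX => by
        obtain ⟨X', hX'⟩ := hX
        obtain ⟨α, -, h1⟩ := F _ (swap_mem_invGraph ρ ε hX')
        exact ⟨α, h1⟩)
    rcases hcore with ⟨w, hw, hline⟩ | ⟨v, w, hind, hplane⟩
    · left
      obtain ⟨η, h1, h2'⟩ := line_of_eigen hrel hw (fun g => hline _ (hρmem g))
      exact ⟨w, η, hw, h1, h2'⟩
    · right
      refine ⟨v, w, hind, fun g => ?_⟩
      obtain ⟨l, n, k, m, hl, hm, hv, hw⟩ := hplane _ (hρmem g)
      have hX' : ((ε g : Kˣ) : K) • ρ g⁻¹ = a g • (1 : Module.End K V) - ρ g :=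
        eq_sub_of_add_eq' (hrel g)
      -- trace
      obtain ⟨α, h1, h2'⟩ := F _ (gen_mem_invGraph ρ ε g)
      simp only at h1 h2'
      have hαl : α = l := by
        have h3 : (α - l) • e = 0 := by rw [sub_smul, ← h1, ← hl, sub_self]
        rcases smul_eq_zero.mp h3 with h | h
        · exact sub_eq_zero.mp h
        · exact absurd h he0
      have htr : l + m = a g := by
        rw [hX', mul_sub, sub_mul, mul_smul_comm, mul_one, smul_mul_assoc, he'e', hm, hαl] at h2'
        have h3 : (a g - m - l) • e' = 0 := by rw [sub_smul, sub_smul, h2', sub_self]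
        rcases smul_eq_zero.mp h3 with h | h
        · linear_combination -h
        · exact absurd h he'0
      refine ⟨l, n, k, m, hv, hw, htr, ?_⟩
      -- determinant: apply `ρ g * (a - ρ g) = ε` to `v`
      have hdet : ρ g (a g • v - ρ g v) = ((ε g : Kˣ) : K) • v := by
        have h3 : ρ g * (((ε g : Kˣ) : K) • ρ g⁻¹) = ((ε g : Kˣ) : K) • (1 : Module.End K V) := by
          rw [mul_smul_comm, ← map_mul, mul_inv_cancel, map_one]
        rw [hX'] at h3
        have h4 := congrArg (fun T : Module.End K V => T v) h3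
        simpa using h4
      rw [hv] at hdet
      have h5 : a g • v - (l • v + k • w) = m • v - k • w := by
        rw [← htr, add_smul]; abel
      rw [h5, map_sub, map_smul, map_smul, hv, hw] at hdet
      have h6 : (l * m - n * k - ((ε g : Kˣ) : K)) • v + (0 : K) • w = 0 := by
        have : m • (l • v + k • w) - k • (n • v + m • w)
            = (l * m - n * k) • v + (0 : K) • w := by
          simp only [smul_add, smul_smul, sub_smul, zero_smul, add_zero]
          rw [mul_comm m l, mul_comm k n, mul_comm m k]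
          abel
        rw [this] at hdet
        rw [sub_smul]
        rw [zero_smul, add_zero] at hdet ⊢
        rw [hdet, sub_self]
      have := (LinearIndependent.pair_iff.mp hind) _ _ h6
      exact sub_eq_zero.mp this.1


lemma pair_coord_unique {v w : V} (hind : LinearIndependent K ![v, w]) {s t s' t' : K}
    (h : s • v + t • w = s' • v + t' • w) : s = s' ∧ t = t' := by
  have h1 : (s - s') • v + (t - t') • w = 0 := by
    rw [sub_smul, sub_smul]
    have : s • v - s' • v + (t • w - t' • w) = (s • v + t • w) - (s' • v + t' • w) := by abel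
    rw [this, h, sub_self]
  obtain ⟨h2, h3⟩ := (LinearIndependent.pair_iff.mp hind) _ _ h1
  exact ⟨sub_eq_zero.mp h2, sub_eq_zero.mp h3⟩

/-- **Lemma (D'), matrix form**: a two-dimensional matrix representation with trace `a` and
determinant `ε`, trivial on every `g` that acts trivially on `V` and has `ε g = 1`. -/
theorem exists_matrixRep [Nontrivial V] (h2 : (2 : K) ≠ 0) {a : G → K}
    (hrel : ∀ g, ρ g + ((ε g : Kˣ) : K) • ρ g⁻¹ = a g • (1 : Module.End K V))
    {c : G} (hc : c * c = 1) (hεc : ε c = -1) :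
    ∃ M : G →* Matrix (Fin 2) (Fin 2) K, (∀ g, (M g).trace = a g) ∧
      (∀ g, (M g).det = ((ε g : Kˣ) : K)) ∧ ∀ g, ρ g = 1 → ε g = 1 → M g = 1 := by
  classical
  rcases exists_line_or_plane h2 hrel hc hεc with ⟨w, η, hw, h1, h3⟩ | ⟨v, w, hind, hpl⟩
  · refine ⟨
      { toFun := fun g => Matrix.diagonal ![((η g : Kˣ) : K), (((ε g * (η g)⁻¹ : Kˣ)) : K)]
        map_one' := ?_
        map_mul' := ?_ }, ?_, ?_, ?_⟩
    · ext i j
      fin_cases i <;> fin_cases j <;> simp
    · intro g h
      rw [Matrix.diagonal_mul_diagonal]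
      congr 1
      ext i
      fin_cases i
      · simp
      · simp only [map_mul, mul_inv_rev, Units.val_mul, Fin.mk_one, Fin.isValue,
          Matrix.cons_val_one, Matrix.cons_val_fin_one]
        rw [mul_comm ((η h)⁻¹ : Kˣ).val]
        ring
    · intro g
      show (Matrix.diagonal ![((η g : Kˣ) : K), (((ε g * (η g)⁻¹ : Kˣ)) : K)]).trace = a g
      rw [Matrix.trace_fin_two]
      simp only [Matrix.diagonal_apply_eq, Matrix.cons_val_zero, Matrix.cons_val_one,
        Matrix.cons_val_fin_one, Units.val_mul]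
      exact h3 g
    · intro g
      show (Matrix.diagonal ![((η g : Kˣ) : K), (((ε g * (η g)⁻¹ : Kˣ)) : K)]).det = _
      rw [Matrix.det_diagonal, Fin.prod_univ_two]
      simp only [Matrix.cons_val_zero, Matrix.cons_val_one, Matrix.cons_val_fin_one, Units.val_mul]
      rw [mul_comm ((ε g : Kˣ) : K), ← mul_assoc, ← Units.val_mul, mul_inv_cancel, Units.val_one,
        one_mul]
    · intro g hg hεg
      have h4 := h1 g
      rw [hg, Module.End.one_apply] at h4
      have h5 : ((η g : Kˣ) : K) = 1 := by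
        have h6 : (1 : K) • w = ((η g : Kˣ) : K) • w := by rw [one_smul]; exact h4
        exact (smul_left_injective K hw h6).symm
      have h7 : η g = 1 := Units.ext h5
      show Matrix.diagonal ![((η g : Kˣ) : K), (((ε g * (η g)⁻¹ : Kˣ)) : K)] = 1
      rw [h7, hεg]
      ext i j
      fin_cases i <;> fin_cases j <;> simp
  · choose l n k m hv hw htr hdet using hpl
    have hmul : ∀ g h, l (g * h) = l g * l h + n g * k h ∧ k (g * h) = k g * l h + m g * k h ∧
        n (g * h) = l g * n h + n g * m h ∧ m (g * h) = k g * n h + m g * m h := by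
      intro g h
      have e1 : ρ (g * h) v = (l g * l h + n g * k h) • v + (k g * l h + m g * k h) • w := by
        rw [map_mul, Module.End.mul_apply, hv h, map_add, map_smul, map_smul, hv g, hw g]
        simp only [smul_add, smul_smul, add_smul]
        rw [mul_comm (l h) (l g), mul_comm (l h) (k g), mul_comm (k h) (n g), mul_comm (k h) (m g)]
        abel
      have e2 : ρ (g * h) w = (l g * n h + n g * m h) • v + (k g * n h + m g * m h) • w := by
        rw [map_mul, Module.End.mul_apply, hw h, map_add, map_smul, map_smul, hv g, hw g]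
        simp only [smul_add, smul_smul, add_smul]
        rw [mul_comm (n h) (l g), mul_comm (n h) (k g), mul_comm (m h) (n g), mul_comm (m h) (m g)]
        abel
      rw [hv (g * h)] at e1
      rw [hw (g * h)] at e2
      obtain ⟨a1, a2⟩ := pair_coord_unique hind e1
      obtain ⟨a3, a4⟩ := pair_coord_unique hind e2
      exact ⟨a1, a2, a3, a4⟩
    have hone : ∀ g, ρ g = 1 → l g = 1 ∧ k g = 0 ∧ n g = 0 ∧ m g = 1 := by
      intro g hg
      have e1 := hv g
      have e2 := hw g
      rw [hg, Module.End.one_apply] at e1 e2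
      have e1' : (1 : K) • v + (0 : K) • w = l g • v + k g • w := by
        rw [one_smul, zero_smul, add_zero]; exact e1
      have e2' : (0 : K) • v + (1 : K) • w = n g • v + m g • w := by
        rw [one_smul, zero_smul, zero_add]; exact e2
      obtain ⟨a1, a2⟩ := pair_coord_unique hind e1'
      obtain ⟨a3, a4⟩ := pair_coord_unique hind e2'
      exact ⟨a1.symm, a2.symm, a3.symm, a4.symm⟩
    refine ⟨
      { toFun := fun g => !![l g, n g; k g, m g]
        map_one' := ?_
        map_mul' := ?_ }, ?_, ?_, ?_⟩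
    · obtain ⟨a1, a2, a3, a4⟩ := hone 1 (map_one ρ)
      rw [a1, a2, a3, a4]
      exact Matrix.one_fin_two.symm
    · intro g h
      obtain ⟨a1, a2, a3, a4⟩ := hmul g h
      rw [Matrix.mul_fin_two, a1, a2, a3, a4]
    · intro g
      show (!![l g, n g; k g, m g] : Matrix (Fin 2) (Fin 2) K).trace = a g
      rw [Matrix.trace_fin_two_of]
      exact htr g
    · intro g
      show (!![l g, n g; k g, m g] : Matrix (Fin 2) (Fin 2) K).det = _
      rw [Matrix.det_fin_two_of]
      exact hdet g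
    · intro g hg _
      obtain ⟨a1, a2, a3, a4⟩ := hone g hg
      show (!![l g, n g; k g, m g] : Matrix (Fin 2) (Fin 2) K) = 1
      rw [a1, a2, a3, a4]
      exact Matrix.one_fin_two.symm

end Fermat.Agent.S29.H95
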